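import Mathlib

set_option autoImplicit false

namespace Fermat.Agent.S57

/-- Coordinates of elements of `I • ⊤` lie in `I`. -/
theorem repr_mem_of_mem_smul_top {B N ι : Type*} [CommRing B] [AddCommGroup N] [Module B N]
    (β : Module.Basis ι B N) (I : Ideal B) (x : N) (hx : x ∈ I • (⊤ : Submodule B N)) (j : ι) :
    β.repr x j ∈ I := by
  induction hx using Submodule.smul_induction_on' with
  | smul r hr n _ =>
    rw [map_smul, Finsupp.smul_apply, smul_eq_mul]
    exact Ideal.mul_mem_right _ _ hr
  | add x _ y _ hx hy =>
    rw [map_add, Finsupp.add_apply]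
    exact Ideal.add_mem _ hx hy

/-- Descent of freeness along a quotient. -/
theorem descent_of_free {B R N M : Type*} [CommRing B] [CommRing R] [AddCommGroup N] [Module B N]
    [AddCommGroup M] [Module R M] [Nontrivial M] [Module.Free B N]
    (ψ : B →+* R) (hψ : Function.Surjective ψ) (I : Ideal B) (hI : I ≤ RingHom.ker ψ)
    (π : N →+ M) (hπ : ∀ (f : B) (x : N), π (f • x) = ψ f • π x) (hπs : Function.Surjective π)
    (hker : ∀ x : N, π x = 0 ↔ x ∈ I • (⊤ : Submodule B N)) :
    Module.Free R M ∧ Module.annihilator R M = ⊥ ∧ RingHom.ker ψ = I := by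
  classical
  have hN : Nontrivial N := hπs.nontrivial
  let β := Module.Free.chooseBasis B N
  have hli : LinearIndependent R (fun j => π (β j)) := by
    rw [linearIndependent_iff']
    intro s g hg i hi
    obtain ⟨f, hf⟩ : ∃ f : _ → B, ∀ j, ψ (f j) = g j := ⟨fun j => (hψ (g j)).choose,
      fun j => (hψ (g j)).choose_spec⟩
    have h1 : π (∑ j ∈ s, f j • β j) = 0 := by
      rw [map_sum, ← hg]
      exact Finset.sum_congr rfl (fun j _ => by rw [hπ, hf])
    have h2 := repr_mem_of_mem_smul_top β I _ ((hker _).mp h1) i
    have h3 : β.repr (∑ j ∈ s, f j • β j) i = f i := by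
      simp [Finsupp.single_apply, hi]
    rw [h3] at h2
    rw [← hf i]
    exact hI h2
  have hsp : ⊤ ≤ Submodule.span R (Set.range (fun j => π (β j))) := by
    intro m hm
    clear hm
    obtain ⟨x, rfl⟩ := hπs m
    have hx : x ∈ Submodule.span B (Set.range β) := by rw [β.span_eq]; trivial
    induction hx using Submodule.span_induction with
    | mem x hx =>
      obtain ⟨j, rfl⟩ := hx
      exact Submodule.subset_span ⟨j, rfl⟩
    | zero => simp
    | add x y _ _ hx hy =>
      rw [map_add]
      exact Submodule.add_mem _ hx hy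
    | smul a x _ hx =>
      rw [hπ]
      exact Submodule.smul_mem _ _ hx
  have hfree : Module.Free R M := Module.Free.of_basis (Module.Basis.mk hli hsp)
  refine ⟨hfree, ?_, ?_⟩
  · rw [Module.annihilator_eq_bot]
    infer_instance
  · refine le_antisymm ?_ hI
    intro f hf
    have hne : Nonempty (Module.Free.ChooseBasisIndex B N) := by
      by_contra h
      rw [not_nonempty_iff] at h
      have : Subsingleton N := β.repr.toEquiv.subsingleton
      exact not_subsingleton N this
    obtain ⟨j⟩ := hne
    have h1 : π (f • β j) = 0 := by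
      rw [hπ, (RingHom.mem_ker).mp hf, zero_smul]
    have h2 := repr_mem_of_mem_smul_top β I _ ((hker _).mp h1) j
    simpa using h2

end Fermat.Agent.S57
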