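import Mathlib

set_option autoImplicit false

namespace Fermat.Agent.S57

/-- A finitely generated module killed by a maximal ideal is Artinian. -/
theorem isArtinian_of_maximal_torsion {A Q : Type*} [CommRing A] [AddCommGroup Q] [Module A Q]
    [Module.Finite A Q] (m : Ideal A) [hm : m.IsMaximal] (h : ∀ a ∈ m, ∀ x : Q, a • x = 0) :
    IsArtinian A Q := by
  have ht : Module.IsTorsionBySet A Q m := by
    intro x a
    exact h a.1 a.2 x
  let _ := ht.module
  let _ : Field (A ⧸ m) := Ideal.Quotient.field m
  have : IsScalarTower A (A ⧸ m) Q := ht.isScalarTower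
  have : Module.Finite (A ⧸ m) Q := Module.Finite.of_restrictScalars_finite A (A ⧸ m) Q
  have : IsArtinian (A ⧸ m) Q := inferInstance
  exact isArtinian_of_surjective_algebraMap (R := A ⧸ m) Ideal.Quotient.mk_surjective

/-- A module over a Noetherian `A`-algebra `B` which is finitely generated over `A` and killed by
a maximal ideal of `A` has finite length over `B`. -/
theorem isFiniteLength_of_finite_of_torsion {A B Q : Type*} [CommRing A] [CommRing B] [Algebra A B]
    [IsNoetherianRing B]
    [AddCommGroup Q] [Module B Q] (m : Ideal A) [hm : m.IsMaximal]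
    (h : ∀ a ∈ m, ∀ x : Q, algebraMap A B a • x = 0) {d : ℕ} (v : Fin d → Q)
    (hv : ∀ x : Q, ∃ c : Fin d → A, x = ∑ i, algebraMap A B (c i) • v i) :
    IsFiniteLength B Q := by
  let _ : Module A Q := Module.compHom Q (algebraMap A B)
  have hsmul : ∀ (a : A) (x : Q), a • x = algebraMap A B a • x := fun _ _ => rfl
  have : IsScalarTower A B Q := ⟨fun a b x => by
    rw [hsmul, Algebra.smul_def, mul_smul]⟩
  have : Module.Finite A Q := by
    refine Module.Finite.of_surjective (Fintype.linearCombination A v) ?_
    intro x
    obtain ⟨c, hc⟩ := hv x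
    refine ⟨c, ?_⟩
    rw [hc, Fintype.linearCombination_apply]
    exact Finset.sum_congr rfl (fun i _ => hsmul _ _)
  have hA : IsArtinian A Q := isArtinian_of_maximal_torsion m (fun a ha x => h a ha x)
  have : Module.Finite B Q := Module.Finite.of_restrictScalars_finite A B Q
  rw [isFiniteLength_iff_isNoetherian_isArtinian]
  exact ⟨inferInstance, isArtinian_of_tower A hA⟩

end Fermat.Agent.S57
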