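import Mathlib

set_option autoImplicit false

open MvPowerSeries RingTheory.Sequence

namespace Fermat.Agent.S57

section general

variable {σ : Type*} {R : Type*} [CommRing R]

/-- Membership in the ideal generated by finitely many variables. -/
theorem mem_span_X_image_iff (s : Finset σ) (f : MvPowerSeries σ R) :
    f ∈ Ideal.span ((X : σ → MvPowerSeries σ R) '' (s : Set σ)) ↔
      ∀ e : σ →₀ ℕ, (∀ i ∈ s, e i = 0) → coeff e f = 0 := by
  classical
  constructor
  · intro hf
    induction hf using Submodule.span_induction with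
    | mem x hx =>
      obtain ⟨i, hi, rfl⟩ := hx
      intro e he
      rw [coeff_X, if_neg]
      rintro rfl
      have := he i hi
      simp at this
    | zero => simp
    | add x y _ _ hx hy =>
      intro e he
      rw [map_add, hx e he, hy e he, add_zero]
    | smul a x _ hx =>
      intro e he
      rw [smul_eq_mul, coeff_mul]
      refine Finset.sum_eq_zero ?_
      rintro ⟨p, q⟩ hpq
      have hpq' : p + q = e := by simpa using hpq
      rw [hx q ?_, mul_zero]
      intro i hi
      have := he i hi
      rw [← hpq'] at this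
      simp at this
      exact this.2
  · induction s using Finset.induction_on generalizing f with
    | empty =>
      intro h
      have : f = 0 := by
        ext e
        simpa using h e (by simp)
      simp [this]
    | insert j s hj ih =>
      intro h
      let hh : MvPowerSeries σ R := fun e => if e j = 0 then coeff e f else 0
      have hhc : ∀ e, coeff e hh = if e j = 0 then coeff e f else 0 := fun e => rfl
      have h1 : X j ∣ f - hh := X_dvd_iff.mpr (fun m hm => by
        rw [map_sub, hhc, if_pos hm, sub_self])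
      have h2 : hh ∈ Ideal.span ((X : σ → MvPowerSeries σ R) '' (s : Set σ)) := by
        refine ih hh (fun e he => ?_)
        rw [hhc]
        split_ifs with hej
        · refine h e ?_
          intro i hi
          rcases Finset.mem_insert.mp hi with rfl | hi
          · exact hej
          · exact he i hi
        · rfl
      obtain ⟨g, hg⟩ := h1
      have : f = X j * g + hh := by rw [← hg]; ring
      rw [this]
      refine Ideal.add_mem _ (Ideal.mul_mem_right _ _ (Ideal.subset_span ⟨j, by simp, rfl⟩)) ?_
      exact Ideal.span_mono (Set.image_mono (by simp)) h2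

theorem X_mul_mem_span_X_image (s : Finset σ) (j : σ) (hj : j ∉ s) (f : MvPowerSeries σ R)
    (h : X j * f ∈ Ideal.span ((X : σ → MvPowerSeries σ R) '' (s : Set σ))) :
    f ∈ Ideal.span ((X : σ → MvPowerSeries σ R) '' (s : Set σ)) := by
  classical
  rw [mem_span_X_image_iff] at h ⊢
  intro e he
  have := h (e + Finsupp.single j 1) (by
    intro i hi
    have hij : j ≠ i := by rintro rfl; exact hj hi
    simp [he i hi, hij])
  rw [X_def, add_comm e, coeff_add_monomial_mul, one_mul] at this
  exact this

theorem ofList_map_X (l : List σ) [DecidableEq σ] :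
    Ideal.ofList (l.map (X : σ → MvPowerSeries σ R)) =
      Ideal.span ((X : σ → MvPowerSeries σ R) '' (l.toFinset : Set σ)) := by
  unfold Ideal.ofList
  congr 1
  ext x
  simp

/-- Distinct variables form a weakly regular sequence. -/
theorem isWeaklyRegular_map_X (l : List σ) (hl : l.Nodup) :
    IsWeaklyRegular (MvPowerSeries σ R) (l.map (X : σ → MvPowerSeries σ R)) := by
  classical
  refine ⟨fun i hi => ?_⟩
  have hi' : i < l.length := by simpa using hi
  rw [isSMulRegular_iff_right_eq_zero_of_smul]
  intro m
  obtain ⟨f, rfl⟩ := Submodule.Quotient.mk_surjective _ m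
  rw [← Submodule.Quotient.mk_smul, Submodule.Quotient.mk_eq_zero, Submodule.Quotient.mk_eq_zero,
    smul_eq_mul, Ideal.mul_top, ← List.map_take, ofList_map_X, List.getElem_map, smul_eq_mul]
  refine X_mul_mem_span_X_image _ _ ?_ f
  rw [List.mem_toFinset]
  intro hmem
  obtain ⟨k, hk, hk'⟩ := List.mem_take_iff_getElem.mp hmem
  have := (List.Nodup.getElem_inj_iff hl).mp hk'
  omega

end general

section dvr

open IsLocalRing

variable {𝒪 : Type} [CommRing 𝒪] [IsDomain 𝒪] [IsDiscreteValuationRing 𝒪] {r : ℕ}

/-- The regular system of parameters `X₀, …, X_{r-1}, ϖ` of `𝒪⟦X₀, …, X_{r-1}⟧`. -/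
noncomputable def params (r : ℕ) (ϖ : 𝒪) : List (MvPowerSeries (Fin r) 𝒪) :=
  (List.finRange r).map X ++ [C ϖ]

theorem params_length (ϖ : 𝒪) : (params r ϖ).length = r + 1 := by
  simp [params]

theorem mem_span_range_X_iff (f : MvPowerSeries (Fin r) 𝒪) :
    f ∈ Ideal.span (Set.range (X : Fin r → MvPowerSeries (Fin r) 𝒪)) ↔ constantCoeff f = 0 := by
  have := mem_span_X_image_iff (Finset.univ : Finset (Fin r)) f
  rw [Finset.coe_univ, Set.image_univ] at this
  rw [this]
  constructor
  · intro h
    exact h 0 (by simp)
  · intro h e he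
    have : e = 0 := by
      ext i
      simpa using he i (Finset.mem_univ _)
    rw [this]
    exact h

theorem ofList_map_X_finRange :
    Ideal.ofList ((List.finRange r).map (X : Fin r → MvPowerSeries (Fin r) 𝒪)) =
      Ideal.span (Set.range (X : Fin r → MvPowerSeries (Fin r) 𝒪)) := by
  rw [ofList_map_X]
  congr 1
  ext x
  simp

theorem isWeaklyRegular_params (ϖ : 𝒪) (hϖ : ϖ ≠ 0) :
    IsWeaklyRegular (MvPowerSeries (Fin r) 𝒪) (params r ϖ) := by
  rw [params, isWeaklyRegular_append_iff, isWeaklyRegular_singleton_iff]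
  refine ⟨isWeaklyRegular_map_X _ (List.nodup_finRange r), ?_⟩
  rw [isSMulRegular_iff_right_eq_zero_of_smul]
  intro m
  obtain ⟨f, rfl⟩ := Submodule.Quotient.mk_surjective _ m
  rw [← Submodule.Quotient.mk_smul, Submodule.Quotient.mk_eq_zero, Submodule.Quotient.mk_eq_zero,
    smul_eq_mul, Ideal.mul_top, ofList_map_X_finRange, mem_span_range_X_iff,
    mem_span_range_X_iff, smul_eq_mul, map_mul, constantCoeff_C]
  intro h
  exact (mul_eq_zero.mp h).resolve_left hϖ

theorem ofList_params (ϖ : 𝒪) (hϖ : Irreducible ϖ) :
    Ideal.ofList (params r ϖ) = maximalIdeal (MvPowerSeries (Fin r) 𝒪) := by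
  rw [params, Ideal.ofList_append, ofList_map_X_finRange, Ideal.ofList_singleton]
  apply le_antisymm
  · rw [sup_le_iff, Ideal.span_le, Ideal.span_le]
    constructor
    · rintro _ ⟨i, rfl⟩
      rw [SetLike.mem_coe, mem_maximalIdeal, mem_nonunits_iff, isUnit_iff_constantCoeff,
        constantCoeff_X]
      exact not_isUnit_zero
    · rintro _ rfl
      rw [SetLike.mem_coe, mem_maximalIdeal, mem_nonunits_iff, isUnit_iff_constantCoeff,
        constantCoeff_C]
      exact hϖ.not_isUnit
  · intro f hf
    rw [mem_maximalIdeal, mem_nonunits_iff, isUnit_iff_constantCoeff] at hf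
    have h1 : constantCoeff f ∈ maximalIdeal 𝒪 := hf
    rw [hϖ.maximalIdeal_eq, Ideal.mem_span_singleton'] at h1
    obtain ⟨c, hc⟩ := h1
    have h2 : f = (f - C c * C ϖ) + C c * C ϖ := by ring
    rw [h2]
    refine Ideal.add_mem _ (Ideal.mem_sup_left ?_)
      (Ideal.mem_sup_right (Ideal.mul_mem_left _ _ (Ideal.mem_span_singleton_self _)))
    rw [mem_span_range_X_iff]
    simp [hc]

theorem isRegular_params (ϖ : 𝒪) (hϖ : Irreducible ϖ) :
    IsRegular (MvPowerSeries (Fin r) 𝒪) (params r ϖ) := by
  refine IsRegular.of_isWeaklyRegular_of_mem_maximalIdeal _ ?_ (isWeaklyRegular_params ϖ hϖ.ne_zero)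
  intro x hx
  rw [← ofList_params ϖ hϖ]
  exact Ideal.subset_span hx

end dvr

end Fermat.Agent.S57
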