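import Mathlib

set_option autoImplicit false

open CategoryTheory IsLocalRing RingTheory.Sequence

namespace Fermat.Agent.S57

variable {B : Type} [CommRing B] [IsLocalRing B]

/-- Finite length modules over a local ring have projective dimension bounded by the one of the
residue field. -/
theorem hasPD_of_isFiniteLength (n : ℕ)
    (hk : HasProjectiveDimensionLT (ModuleCat.of B (B ⧸ maximalIdeal B)) n)
    (L : Type) [AddCommGroup L] [Module B L] (h : IsFiniteLength B L) :
    HasProjectiveDimensionLT (ModuleCat.of B L) n := by
  induction h with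
  | @of_subsingleton M _ _ _ =>
    have hz : Limits.IsZero (ModuleCat.of B M) := ModuleCat.isZero_of_subsingleton _
    have := hz.hasProjectiveDimensionLT_zero
    exact hasProjectiveDimensionLT_of_ge _ 0 n (Nat.zero_le _)
  | @of_simple_quotient M _ _ S hS _ ih =>
    obtain ⟨I, hI, ⟨e⟩⟩ := isSimpleModule_iff_quot_maximal.mp hS
    obtain rfl : I = maximalIdeal B := IsLocalRing.eq_maximalIdeal hI
    have h3 : HasProjectiveDimensionLT (ModuleCat.of B (M ⧸ S)) n :=
      hasProjectiveDimensionLT_of_iso e.symm.toModuleIso n
    let SC : ShortComplex (ModuleCat.{0} B) :=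
      ModuleCat.shortComplexOfCompEqZero S.subtype S.mkQ (by ext x; simp)
    have hSC : SC.ShortExact := by
      refine ModuleCat.shortComplex_shortExact SC ?_ S.injective_subtype S.mkQ_surjective
      intro x
      simp [SC]
    exact hSC.hasProjectiveDimensionLT_X₂ n ih h3

variable [IsNoetherianRing B]

/-- A finitely generated module over a regular local ring which has a regular sequence of length
the dimension (with finite length quotient) is free. -/
theorem free_of_regular_sequences
    (xs : List B) (hxs : IsRegular B xs) (hxm : Ideal.ofList xs = maximalIdeal B)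
    (N : Type) [AddCommGroup N] [Module B N] [Module.Finite B N] [Nontrivial N]
    (ys : List B) (hys : IsWeaklyRegular N ys) (hym : ∀ y ∈ ys, y ∈ maximalIdeal B)
    (hlen : ys.length = xs.length)
    (hfl : IsFiniteLength B (N ⧸ (Ideal.ofList ys • ⊤ : Submodule B N))) :
    Module.Free B N := by
  -- projective dimension of the residue field
  have h1 := ModuleCat.projectiveDimension_quotient_eq_length.{0} xs hxs
  have h2 : HasProjectiveDimensionLE
      (ModuleCat.of B (Shrink.{0} (B ⧸ Ideal.ofList xs))) xs.length :=
    (projectiveDimension_le_iff _ _).mp h1.le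
  have hk : HasProjectiveDimensionLT (ModuleCat.of B (B ⧸ maximalIdeal B)) (xs.length + 1) := by
    rw [← hxm]
    exact hasProjectiveDimensionLT_of_iso (Shrink.linearEquiv B (B ⧸ Ideal.ofList xs)).toModuleIso _
  have h3 := hasPD_of_isFiniteLength (xs.length + 1) hk _ hfl
  have h4 := ModuleCat.projectiveDimension_quotient_eq_add_length_of_isWeaklyRegular
    (ModuleCat.of B N) ys hys hym
  have h5 : projectiveDimension (ModuleCat.of B (N ⧸ (Ideal.ofList ys • ⊤ : Submodule B N)))
      ≤ xs.length := (projectiveDimension_le_iff _ _).mpr h3
  have h6 : projectiveDimension (ModuleCat.of B N) + (xs.length : ℕ) ≤ (0 : ℕ) + (xs.length : ℕ) := by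
    rw [← hlen] at h5 ⊢
    simpa using h4 ▸ h5
  have h7 : projectiveDimension (ModuleCat.of B N) ≤ (0 : ℕ) := by
    exact (ENat.WithBot.add_le_add_natCast_right_iff).mp h6
  have h8 : HasProjectiveDimensionLE (ModuleCat.of B N) 0 := (projectiveDimension_le_iff _ _).mp h7
  have h9 : Projective (ModuleCat.of B N) := (projective_iff_hasProjectiveDimensionLE_zero _).mpr h8
  have h10 : Module.Projective B N := (IsProjective.iff_projective _).mpr h9
  exact Module.free_of_flat_of_isLocalRing

end Fermat.Agent.S57
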