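import Mathlib

set_option autoImplicit false

namespace Fermat.Agent.S57

open IsLocalRing RingTheory.Sequence

universe u v

/-- In a local ring whose maximal ideal is spanned by a finite set `s`, an element
`x ∈ 𝔪 \ 𝔪²` can replace one of the generators. -/
theorem exists_erase_span {A : Type u} [CommRing A] [IsLocalRing A] [DecidableEq A]
    (s : Finset A) (hs : Ideal.span (s : Set A) = maximalIdeal A) {x : A}
    (hx : x ∈ maximalIdeal A) (hx2 : x ∉ maximalIdeal A * maximalIdeal A) :
    ∃ i ∈ s, maximalIdeal A = Ideal.span (insert x ((s.erase i : Finset A) : Set A)) := by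
  have hx' : x ∈ Ideal.span (s : Set A) := hs ▸ hx
  obtain ⟨a, -, ha⟩ := Submodule.mem_span_finset.mp hx'
  have hex : ∃ i ∈ s, IsUnit (a i) := by
    by_contra hcon
    push Not at hcon
    apply hx2
    rw [← ha]
    refine Ideal.sum_mem _ fun i hi => ?_
    rw [smul_eq_mul]
    refine Ideal.mul_mem_mul ((mem_maximalIdeal _).mpr (hcon i hi)) ?_
    rw [← hs]
    exact Ideal.subset_span hi
  obtain ⟨i, hi, hu⟩ := hex
  refine ⟨i, hi, le_antisymm ?_ ?_⟩
  · rw [← hs, Ideal.span_le]
    intro j hj
    by_cases hji : j = i
    · subst hji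
      obtain ⟨u, hu⟩ := hu
      have h1 : a j * j = x - ∑ k ∈ s.erase j, a k • k := by
        rw [← ha, ← Finset.add_sum_erase s _ hi]
        simp
      have h2 : j = (↑u⁻¹ : A) * (x - ∑ k ∈ s.erase j, a k • k) := by
        rw [← h1, ← hu, ← mul_assoc]
        simp
      have h3 : (↑u⁻¹ : A) * (x - ∑ k ∈ s.erase j, a k • k) ∈
          Ideal.span (insert x ((s.erase j : Finset A) : Set A)) := ?_
      · exact (congrArg (· ∈ Ideal.span (insert x ((s.erase j : Finset A) : Set A))) h2).mpr h3
      refine Ideal.mul_mem_left _ _ (Ideal.sub_mem _ ?_ ?_)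
      · exact Ideal.subset_span (Set.mem_insert _ _)
      · refine Ideal.sum_mem _ fun k hk => ?_
        rw [smul_eq_mul]
        exact Ideal.mul_mem_left _ _ (Ideal.subset_span (Set.mem_insert_of_mem _ hk))
    · exact Ideal.subset_span (Set.mem_insert_of_mem _ (Finset.mem_erase.mpr ⟨hji, hj⟩))
  · rw [Ideal.span_le]
    intro j hj
    rcases hj with rfl | hj
    · exact hx
    · rw [← hs]
      exact Ideal.subset_span (Finset.mem_of_mem_erase hj)

/-- Prime avoidance: if `y ∈ 𝔪` is regular on a nontrivial finite module `N'`, there is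
`x ∈ 𝔪 \ 𝔪²` regular on `N'`. -/
theorem exists_regular_not_mem_sq {A : Type u} [CommRing A] [IsLocalRing A] [IsNoetherianRing A]
    (N' : Type v) [AddCommGroup N'] [Module A N'] [Module.Finite A N'] [Nontrivial N']
    {y : A} (hy : y ∈ maximalIdeal A) (hreg : IsSMulRegular N' y) :
    ∃ x ∈ maximalIdeal A, x ∉ maximalIdeal A * maximalIdeal A ∧ IsSMulRegular N' x := by
  classical
  set m := maximalIdeal A with hm
  have hfin : (associatedPrimes A N').Finite := associatedPrimes.finite A N'
  let s : Finset (Ideal A) := insert (m * m) hfin.toFinset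
  have key : ¬ ((m : Set A) ⊆ ⋃ i ∈ (↑s : Set (Ideal A)), ((id i : Ideal A) : Set A)) := by
    rw [Ideal.subset_union_prime (f := id) (m * m) (m * m)]
    · rintro ⟨I, hI, hmI⟩
      rcases Finset.mem_insert.mp hI with rfl | hI
      · -- m ≤ m * m, so m = ⊥ by Nakayama
        have hbot : m = ⊥ := by
          refine Submodule.eq_bot_of_le_smul_of_le_jacobson_bot m m (IsNoetherian.noetherian m)
            (by simpa using hmI) ?_
          rw [IsLocalRing.jacobson_eq_maximalIdeal ⊥ bot_ne_top]
        have hy0 : y = 0 := by simpa [hbot] using hy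
        obtain ⟨z, hz⟩ := exists_ne (0 : N')
        exact hz (hreg (by simp [hy0]))
      · have hI' : I ∈ associatedPrimes A N' := hfin.mem_toFinset.mp hI
        have : y ∈ ⋃ p ∈ associatedPrimes A N', (p : Set A) :=
          Set.mem_biUnion hI' (hmI hy)
        rw [biUnion_associatedPrimes_eq_compl_regular] at this
        exact this hreg
    · intro I hI h1 _
      rcases Finset.mem_insert.mp hI with rfl | hI
      · exact absurd rfl h1
      · exact (hfin.mem_toFinset.mp hI).isPrime
  rw [Set.not_subset] at key
  obtain ⟨x, hxm, hx⟩ := key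
  refine ⟨x, hxm, fun hx2 => hx ?_, ?_⟩
  · exact Set.mem_biUnion (Finset.mem_coe.mpr (Finset.mem_insert_self _ _)) hx2
  · by_contra hnreg
    have : x ∈ ⋃ p ∈ associatedPrimes A N', (p : Set A) := by
      rw [biUnion_associatedPrimes_eq_compl_regular]
      exact hnreg
    obtain ⟨p, hp, hxp⟩ := Set.mem_iUnion₂.mp this
    exact hx (Set.mem_biUnion (Finset.mem_coe.mpr
      (Finset.mem_insert_of_mem (hfin.mem_toFinset.mpr hp))) hxp)

/-- **Key lemma** (maximal Cohen-Macaulay modules over regular local rings are free, in an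
elementary formulation). Let `A` be a Noetherian local ring whose maximal ideal is generated by
at most `n` elements and `N` a finite `A`-module admitting a weakly regular sequence of length `n`
in the maximal ideal. Then `N` is free. -/
theorem free_of_isWeaklyRegular (n : ℕ) :
    ∀ (A : Type u) [CommRing A] [IsLocalRing A] [IsNoetherianRing A]
      (N : Type v) [AddCommGroup N] [Module A N] [Module.Finite A N]
      (ys : List A), ys.length = n → (∀ y ∈ ys, y ∈ maximalIdeal A) → IsWeaklyRegular N ys →
      (∃ s : Finset A, s.card ≤ n ∧ Ideal.span (s : Set A) = maximalIdeal A) →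
      Module.Free A N := by
  classical
  induction n with
  | zero =>
    intro A _ _ _ N _ _ _ ys _ _ _ ⟨s, hs, hspan⟩
    have hs0 : s = ∅ := Finset.card_eq_zero.mp (Nat.le_zero.mp hs)
    have hbot : maximalIdeal A = ⊥ := by rw [← hspan, hs0]; simp
    have hfield : IsField A := IsLocalRing.isField_iff_maximalIdeal_eq.mpr hbot
    let := hfield.toField
    exact Module.Free.of_divisionRing A N
  | succ n ih =>
    intro A _ _ _ N _ _ _ ys hlen hmem hreg ⟨s, hs, hspan⟩
    rcases subsingleton_or_nontrivial N with hN | hN
    · exact Module.Free.of_subsingleton A N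
    -- split off the last element
    obtain ⟨ys', y, rfl⟩ : ∃ ys' y, ys = ys' ++ [y] := by
      rcases List.eq_nil_or_concat ys with rfl | ⟨l, a, h⟩
      · simp at hlen
      · exact ⟨l, a, by simpa using h⟩
    have hlen' : ys'.length = n := by simpa using hlen
    have hmem' : ∀ z ∈ ys', z ∈ maximalIdeal A := fun z hz => hmem z (by simp [hz])
    have hy : y ∈ maximalIdeal A := hmem y (by simp)
    rw [isWeaklyRegular_append_iff] at hreg
    obtain ⟨hreg1, hreg2⟩ := hreg
    rw [isWeaklyRegular_singleton_iff] at hreg2
    have hnt : Nontrivial (N ⧸ (Ideal.ofList ys' • ⊤ : Submodule A N)) :=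
      (IsRegular.of_isWeaklyRegular_of_mem_maximalIdeal N hmem' hreg1).quot_ofList_smul_nontrivial ⊤
    obtain ⟨x, hxm, hx2, hxreg⟩ := exists_regular_not_mem_sq _ hy hreg2
    have hreg3 : IsWeaklyRegular N (ys' ++ [x]) := by
      rw [isWeaklyRegular_append_iff, isWeaklyRegular_singleton_iff]
      exact ⟨hreg1, hxreg⟩
    have hreg4 : IsWeaklyRegular N (x :: ys') := by
      refine IsLocalRing.isWeaklyRegular_of_perm_of_subset_maximalIdeal hreg3 ?_ ?_
      · exact List.perm_append_singleton x ys'
      · intro r hr
        rcases List.mem_append.mp hr with hr | hr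
        · exact hmem' r hr
        · rw [List.mem_singleton.mp hr]; exact hxm
    rw [isWeaklyRegular_cons_iff'] at hreg4
    obtain ⟨hxN, hreg5⟩ := hreg4
    -- the quotient ring
    have hne : Ideal.span {x} ≠ ⊤ := by
      intro h
      rw [Ideal.span_singleton_eq_top] at h
      exact (mem_maximalIdeal x).mp hxm h
    have : Nontrivial (A ⧸ Ideal.span {x}) := Ideal.Quotient.nontrivial_iff.mpr hne
    have : IsLocalRing (A ⧸ Ideal.span {x}) :=
      IsLocalRing.of_surjective' (Ideal.Quotient.mk (Ideal.span {x})) Ideal.Quotient.mk_surjective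
    have : Module.Finite (A ⧸ Ideal.span {x}) (QuotSMulTop x N) :=
      Module.Finite.of_restrictScalars_finite A _ _
    have hmax : maximalIdeal (A ⧸ Ideal.span {x}) =
        (maximalIdeal A).map (Ideal.Quotient.mk (Ideal.span {x})) := by
      symm
      apply IsLocalRing.eq_maximalIdeal
      rcases Ideal.map_eq_top_or_isMaximal_of_surjective (Ideal.Quotient.mk (Ideal.span {x}))
        Ideal.Quotient.mk_surjective (maximalIdeal.isMaximal A) with h | h
      · exfalso
        have h1 : (1 : A ⧸ Ideal.span {x}) ∈
            (maximalIdeal A).map (Ideal.Quotient.mk (Ideal.span {x})) := h ▸ Submodule.mem_top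
        obtain ⟨w, hw, hw1⟩ :=
          (Ideal.mem_map_iff_of_surjective _ Ideal.Quotient.mk_surjective).mp h1
        have h2 : w - 1 ∈ Ideal.span {x} := by
          rw [← Ideal.Quotient.eq_zero_iff_mem, map_sub, hw1, map_one, sub_self]
        have h3 : w - 1 ∈ maximalIdeal A :=
          (Ideal.span_le.mpr (Set.singleton_subset_iff.mpr hxm)) h2
        have h4 : (1 : A) ∈ maximalIdeal A := by
          have := Ideal.sub_mem _ hw h3
          simpa using this
        exact (Ideal.ne_top_iff_one _).mp (maximalIdeal.isMaximal A).ne_top h4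
      · exact h
    have hfree : Module.Free (A ⧸ Ideal.span {x}) (QuotSMulTop x N) := by
      refine ih (A ⧸ Ideal.span {x}) (QuotSMulTop x N)
        (ys'.map (Ideal.Quotient.mk (Ideal.span {x}))) (by simpa using hlen') ?_ hreg5 ?_
      · intro z hz
        obtain ⟨w, hw, rfl⟩ := List.mem_map.mp hz
        rw [hmax]
        exact Ideal.mem_map_of_mem _ (hmem' w hw)
      · obtain ⟨i, hi, hspan'⟩ := exists_erase_span s hspan hxm hx2
        refine ⟨(s.erase i).image (Ideal.Quotient.mk (Ideal.span {x})), ?_, ?_⟩
        · refine Finset.card_image_le.trans ?_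
          rw [Finset.card_erase_of_mem hi]
          omega
        · rw [hmax, hspan', Ideal.map_span, Set.image_insert_eq, Finset.coe_image]
          have h0 : Ideal.Quotient.mk (Ideal.span {x}) x = 0 :=
            Ideal.Quotient.eq_zero_iff_mem.mpr (Ideal.mem_span_singleton_self x)
          rw [h0]
          exact (Submodule.span_insert_zero).symm
    have : Module.FinitePresentation A N := Module.finitePresentation_of_finite A N
    refine (Module.free_quotSMulTop_iff_free A N ?_ hxN).mp hfree
    rw [IsLocalRing.jacobson_eq_maximalIdeal ⊥ bot_ne_top]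
    exact hxm

end Fermat.Agent.S57
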